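import Mathlib.RingTheory.Valuation.RamificationGroup
import Fermat.Prelude.Def_FLTPrelim_Ramification

/-!
# S05, module M2: elementary facts about the inertia subgroup of a valuation subring

For `A : ValuationSubring L`, `σ ∈ A.inertiaSubgroupIn K`:
* `σ` stabilises `A` (it lies in the decomposition subgroup);
* `σ a - a ∈ A.nonunits` for every `a ∈ A`.
-/

set_option autoImplicit false

namespace Fermat.Agent.S05.H63

open ValuationSubring
open scoped Pointwise

variable {K L : Type*} [Field K] [Field L] [Algebra K L]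

theorem mem_decompositionSubgroup_of_mem_inertiaSubgroupIn {A : ValuationSubring L}
    {σ : L ≃ₐ[K] L} (hσ : σ ∈ A.inertiaSubgroupIn K) : σ ∈ A.decompositionSubgroup K := by
  obtain ⟨τ, -, rfl⟩ := hσ
  exact τ.2

/-- Elements of the decomposition subgroup map `A` into `A`. -/
theorem apply_mem_of_mem_decompositionSubgroup {A : ValuationSubring L}
    {σ : L ≃ₐ[K] L} (hσ : σ ∈ A.decompositionSubgroup K) {a : L} (ha : a ∈ A) : σ a ∈ A := by
  have h : σ • A = A := hσ
  have h2 : σ • a ∈ σ • A := ValuationSubring.smul_mem_pointwise_smul σ a A ha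
  rw [h] at h2
  exact h2

theorem apply_mem_iff_of_mem_decompositionSubgroup {A : ValuationSubring L}
    {σ : L ≃ₐ[K] L} (hσ : σ ∈ A.decompositionSubgroup K) {a : L} : σ a ∈ A ↔ a ∈ A := by
  refine ⟨fun h => ?_, fun h => apply_mem_of_mem_decompositionSubgroup hσ h⟩
  have h2 := apply_mem_of_mem_decompositionSubgroup
    ((A.decompositionSubgroup K).inv_mem hσ) h
  have h3 : σ⁻¹ (σ a) = a := by
    change σ.symm (σ a) = a
    exact σ.symm_apply_apply a
  rwa [h3] at h2

/-- (M2a) Inertia elements map `A` into `A`. -/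
theorem apply_mem_of_mem_inertiaSubgroupIn {A : ValuationSubring L}
    {σ : L ≃ₐ[K] L} (hσ : σ ∈ A.inertiaSubgroupIn K) {a : L} (ha : a ∈ A) : σ a ∈ A :=
  apply_mem_of_mem_decompositionSubgroup (mem_decompositionSubgroup_of_mem_inertiaSubgroupIn hσ) ha

theorem apply_mem_iff_of_mem_inertiaSubgroupIn {A : ValuationSubring L}
    {σ : L ≃ₐ[K] L} (hσ : σ ∈ A.inertiaSubgroupIn K) {a : L} : σ a ∈ A ↔ a ∈ A :=
  apply_mem_iff_of_mem_decompositionSubgroup
    (mem_decompositionSubgroup_of_mem_inertiaSubgroupIn hσ)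

/-- (M2b) Inertia elements act trivially modulo the maximal ideal. -/
theorem apply_sub_mem_nonunits_of_mem_inertiaSubgroupIn {A : ValuationSubring L}
    {σ : L ≃ₐ[K] L} (hσ : σ ∈ A.inertiaSubgroupIn K) {a : L} (ha : a ∈ A) :
    σ a - a ∈ A.nonunits := by
  obtain ⟨τ, hτ, rfl⟩ := hσ
  have hker : MulSemiringAction.toRingAut (A.decompositionSubgroup K)
      (IsLocalRing.ResidueField A) τ = 1 := hτ
  have h1 : τ • IsLocalRing.residue A ⟨a, ha⟩ = IsLocalRing.residue A ⟨a, ha⟩ := by
    have := congrArg (fun f : RingAut (IsLocalRing.ResidueField A) =>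
      f (IsLocalRing.residue A ⟨a, ha⟩)) hker
    simpa using this
  rw [← IsLocalRing.ResidueField.residue_smul] at h1
  have h2 : IsLocalRing.residue A (τ • (⟨a, ha⟩ : A) - ⟨a, ha⟩) = 0 := by
    rw [map_sub, h1, sub_self]
  rw [IsLocalRing.residue_eq_zero_iff] at h2
  have h3 := (ValuationSubring.coe_mem_nonunits_iff (A := A)).mpr h2
  exact h3

/-- Inertia elements preserve the valuation ring's nonunits. -/
theorem apply_mem_nonunits_of_mem_decompositionSubgroup {A : ValuationSubring L}
    {σ : L ≃ₐ[K] L} (hσ : σ ∈ A.decompositionSubgroup K) {a : L} (ha : a ∈ A.nonunits) :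
    σ a ∈ A.nonunits := by
  rw [ValuationSubring.mem_nonunits_iff_or] at ha ⊢
  rcases ha with rfl | ha
  · left; simp
  · right
    rw [← map_inv₀]
    exact fun h => ha ((apply_mem_iff_of_mem_decompositionSubgroup hσ).mp h)

theorem apply_mem_nonunits_iff_of_mem_decompositionSubgroup {A : ValuationSubring L}
    {σ : L ≃ₐ[K] L} (hσ : σ ∈ A.decompositionSubgroup K) {a : L} :
    σ a ∈ A.nonunits ↔ a ∈ A.nonunits := by
  refine ⟨fun h => ?_, fun h => apply_mem_nonunits_of_mem_decompositionSubgroup hσ h⟩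
  have h2 := apply_mem_nonunits_of_mem_decompositionSubgroup
    ((A.decompositionSubgroup K).inv_mem hσ) h
  have h3 : σ⁻¹ (σ a) = a := by
    change σ.symm (σ a) = a
    exact σ.symm_apply_apply a
  rwa [h3] at h2

theorem apply_mem_nonunits_iff_of_mem_inertiaSubgroupIn {A : ValuationSubring L}
    {σ : L ≃ₐ[K] L} (hσ : σ ∈ A.inertiaSubgroupIn K) {a : L} :
    σ a ∈ A.nonunits ↔ a ∈ A.nonunits :=
  apply_mem_nonunits_iff_of_mem_decompositionSubgroup
    (mem_decompositionSubgroup_of_mem_inertiaSubgroupIn hσ)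

/-- Elements of the base field are fixed. -/
theorem apply_algebraMap (σ : L ≃ₐ[K] L) (c : K) : σ (algebraMap K L c) = algebraMap K L c :=
  σ.commutes c

end Fermat.Agent.S05.H63
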