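import Mathlib.AlgebraicGeometry.EllipticCurve.Affine.Point
import Mathlib.RingTheory.Valuation.ValuationSubring
import Fermat.Agent.S05.H63.Inertia
import Fermat.Prelude.Def_FLTPrelim_GaloisRep

/-!
# S05, module M4: the inertia-reduction lemma

Let `A` be a valuation subring of a field `L` and `W` a Weierstrass curve over `L` with
coefficients in `A`.  If `P = (x, y)` and `P' = (x', y')` are points with coordinates in `A`,
congruent modulo the maximal ideal, and the reduction of `P` is a nonsingular point of the reduced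
curve, then `P' - P` lies in the kernel of reduction: it is `0` or its `x`-coordinate is not in `A`.
-/

set_option autoImplicit false

namespace Fermat.Agent.S05.H63

open WeierstrassCurve WeierstrassCurve.Affine

section Valuation

variable {L : Type*} [Field L] (A : ValuationSubring L)

theorem not_mem_of_div {N D : L} (hN : N ∈ A) (hN' : N ∉ A.nonunits) (hD : D ∈ A.nonunits)
    (hD0 : D ≠ 0) : N / D ∉ A := by
  rw [← A.valuation_le_one_iff, map_div₀, not_le]
  have h1 : A.valuation N = 1 := by
    rcases lt_or_eq_of_le ((A.valuation_le_one_iff N).mpr hN) with h | h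
    · exact absurd (A.mem_nonunits_iff.mpr h) hN'
    · exact h
  have h2 : A.valuation D < 1 := A.mem_nonunits_iff.mp hD
  have h3 : A.valuation D ≠ 0 := (Valuation.ne_zero_iff _).mpr hD0
  rw [h1, one_div]
  exact (one_lt_inv₀ (zero_lt_iff.mpr h3)).mpr h2

theorem sq_add_not_mem {ℓ a c : L} (hℓ : ℓ ∉ A) (ha : a ∈ A) (hc : c ∈ A) :
    ℓ ^ 2 + a * ℓ + c ∉ A := by
  rw [← A.valuation_le_one_iff, not_le] at hℓ ⊢
  have ha' := (A.valuation_le_one_iff a).mpr ha
  have hc' := (A.valuation_le_one_iff c).mpr hc
  have h0 : (0 : A.ValueGroup) < A.valuation ℓ := lt_trans zero_lt_one hℓ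
  have h1 : A.valuation ℓ < A.valuation (ℓ ^ 2) := by
    rw [map_pow, pow_two]
    calc A.valuation ℓ = A.valuation ℓ * 1 := (mul_one _).symm
      _ < A.valuation ℓ * A.valuation ℓ := by
          exact mul_lt_mul_of_pos_left hℓ h0
  have h2 : A.valuation (a * ℓ + c) < A.valuation (ℓ ^ 2) := by
    refine lt_of_le_of_lt (A.valuation.map_add _ _) (max_lt ?_ ?_)
    · rw [map_mul]
      calc A.valuation a * A.valuation ℓ ≤ 1 * A.valuation ℓ := by
            exact mul_le_mul_of_nonneg_right ha' (le_of_lt h0)
        _ = A.valuation ℓ := one_mul _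
        _ < _ := h1
    · exact lt_of_le_of_lt hc' (lt_trans hℓ h1)
  have h3 : A.valuation (ℓ ^ 2 + a * ℓ + c) = A.valuation (ℓ ^ 2) := by
    rw [add_assoc]
    exact Valuation.map_add_eq_of_lt_left _ h2
  rw [h3]
  exact lt_trans hℓ h1

theorem mem_nonunits_of_sub_mem {x y : L} (hxy : x - y ∈ A.nonunits) (hy : y ∈ A.nonunits) :
    x ∈ A.nonunits := by
  have := A.nonunits.add_mem hxy hy
  rwa [sub_add_cancel] at this

theorem mem_of_sub_mem_nonunits {x y : L} (hxy : x - y ∈ A.nonunits) (hy : y ∈ A) :
    x ∈ A := by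
  have := add_mem (A.nonunits_subset hxy) hy
  rwa [sub_add_cancel] at this

theorem mul_mem_nonunits_of_mem_left {a x : L} (ha : a ∈ A) (hx : x ∈ A.nonunits) :
    a * x ∈ A.nonunits := by
  rw [A.mem_nonunits_iff] at hx ⊢
  rw [map_mul]
  have ha' := (A.valuation_le_one_iff a).mpr ha
  calc A.valuation a * A.valuation x ≤ 1 * A.valuation x := by
        exact mul_le_mul_of_nonneg_right ha' zero_le
    _ = A.valuation x := one_mul _
    _ < 1 := hx

theorem mul_mem_nonunits_of_mem_right {a x : L} (hx : x ∈ A.nonunits) (ha : a ∈ A) :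
    x * a ∈ A.nonunits := by
  rw [mul_comm]
  exact mul_mem_nonunits_of_mem_left A ha hx

end Valuation

section Coordinates

variable {L : Type*} [Field L] [DecidableEq L] (A : ValuationSubring L) (W : Affine L)

/-- **M4, coordinate form.**  Two points congruent modulo the maximal ideal of `A`, the first
having nonsingular reduction, differ by a point in the kernel of reduction. -/
theorem some_sub_some_eq_zero_or_X_not_mem
    (ha₁ : W.a₁ ∈ A) (ha₂ : W.a₂ ∈ A) (ha₃ : W.a₃ ∈ A) (ha₄ : W.a₄ ∈ A)
    {x y x' y' : L} (h : W.Nonsingular x y) (h' : W.Nonsingular x' y')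
    (hx : x ∈ A) (hy : y ∈ A) (hxx : x' - x ∈ A.nonunits) (hyy : y' - y ∈ A.nonunits)
    (hns : W.a₁ * y - (3 * x ^ 2 + 2 * W.a₂ * x + W.a₄) ∉ A.nonunits ∨
      2 * y + W.a₁ * x + W.a₃ ∉ A.nonunits) :
    Point.some x' y' h' - Point.some x y h = 0 ∨
      ∃ (x'' y'' : L) (h'' : W.Nonsingular x'' y''),
        Point.some x' y' h' - Point.some x y h = Point.some x'' y'' h'' ∧ x'' ∉ A := by
  have hx'A : x' ∈ A := mem_of_sub_mem_nonunits A hxx hx
  have hy'A : y' ∈ A := mem_of_sub_mem_nonunits A hyy hy
  rw [sub_eq_add_neg, Point.neg_some]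
  by_cases hxy : x' = x ∧ y' = W.negY x (W.negY x y)
  · left
    exact Point.add_of_Y_eq hxy.1 hxy.2
  · right
    rw [Point.add_some hxy]
    refine ⟨_, _, _, rfl, ?_⟩
    -- the slope is not integral
    have hℓ : W.slope x' x y' (W.negY x y) ∉ A := by
      by_cases hx' : x' = x
      · -- tangent-type case: `P' = -P`, `y' ≠ y`
        have hy' : y' ≠ W.negY x (W.negY x y) := fun h => hxy ⟨hx', h⟩
        rw [slope_of_Y_ne hx' hy']
        rw [negY_negY] at hy'
        subst hx'
        -- y' = negY x' y
        have hyneg : y' = W.negY x' y :=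
          (Y_eq_of_X_eq h'.1 h.1 rfl).resolve_left hy'
        have hden : y' - W.negY x' y' = y' - y := by
          rw [hyneg, negY_negY]
        rw [hden]
        -- W_Y(P) = y - y' ∈ m
        have hWY : 2 * y + W.a₁ * x' + W.a₃ ∈ A.nonunits := by
          have : 2 * y + W.a₁ * x' + W.a₃ = -(y' - y) := by
            rw [hyneg]; simp only [negY]; ring
          rw [this]
          exact A.nonunits.neg_mem hyy
        have hWX : W.a₁ * y - (3 * x' ^ 2 + 2 * W.a₂ * x' + W.a₄) ∉ A.nonunits :=
          hns.resolve_right (fun h => h hWY)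
        refine not_mem_of_div A ?_ ?_ hyy (sub_ne_zero.mpr hy')
        · exact sub_mem (add_mem (add_mem
            (mul_mem ((ofNat_mem A 3)) (pow_mem hx'A 2))
            (mul_mem (mul_mem ((ofNat_mem A 2)) ha₂) hx'A)) ha₄) (mul_mem ha₁ hy'A)
        · intro hmem
          apply hWX
          -- numerator ≡ -W_X(P) mod m
          have : W.a₁ * y - (3 * x' ^ 2 + 2 * W.a₂ * x' + W.a₄) =
              -(3 * x' ^ 2 + 2 * W.a₂ * x' + W.a₄ - W.a₁ * y') + -(W.a₁ * (y' - y)) := by ring
          rw [this]
          exact A.nonunits.add_mem (A.nonunits.neg_mem hmem)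
            (A.nonunits.neg_mem (mul_mem_nonunits_of_mem_left A ha₁ hyy))
      · -- secant case
        rw [slope_of_X_ne hx']
        have hxx0 : x' - x ≠ 0 := sub_ne_zero.mpr hx'
        by_cases hWY : 2 * y + W.a₁ * x + W.a₃ ∈ A.nonunits
        · -- use the other expression for the slope
          have hWX : W.a₁ * y - (3 * x ^ 2 + 2 * W.a₂ * x + W.a₄) ∉ A.nonunits :=
            hns.resolve_right (fun h => h hWY)
          set M : L := x' ^ 2 + x' * x + x ^ 2 + W.a₂ * (x' + x) + W.a₄ - W.a₁ * W.negY x y
            with hM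
          set D : L := y' + W.negY x y + W.a₁ * x' + W.a₃ with hD
          have hkey : (y' - W.negY x y) * D = (x' - x) * M := by
            have e1 := (equation_iff _ _).mp h'.1
            have e2 := (equation_iff _ _).mp ((equation_neg x y).mpr h.1)
            rw [hD, hM]
            linear_combination e1 - e2
          have hDm : D ∈ A.nonunits := by
            have : D = (y' - y) + W.a₁ * (x' - x) := by
              rw [hD]; simp only [negY]; ring
            rw [this]
            exact A.nonunits.add_mem hyy (mul_mem_nonunits_of_mem_left A ha₁ hxx)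
          have hnegY : W.negY x y ∈ A := by
            simp only [negY]
            exact sub_mem (sub_mem (neg_mem hy) (mul_mem ha₁ hx)) ha₃
          have hMA : M ∈ A := by
            rw [hM]
            exact sub_mem (add_mem (add_mem (add_mem (add_mem
              (pow_mem hx'A 2) (mul_mem hx'A hx)) (pow_mem hx 2))
              (mul_mem ha₂ (add_mem hx'A hx))) ha₄) (mul_mem ha₁ hnegY)
          have hMu : M ∉ A.nonunits := by
            intro hmem
            apply hWX
            -- W_X(P) = -M + (x' - x) * (x' + 2x + a₂) + a₁ * W_Y(P)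
            have : W.a₁ * y - (3 * x ^ 2 + 2 * W.a₂ * x + W.a₄) =
                -M + (x' - x) * (x' + 2 * x + W.a₂) + W.a₁ * (2 * y + W.a₁ * x + W.a₃) := by
              rw [hM]; simp only [negY]; ring
            rw [this]
            refine A.nonunits.add_mem (A.nonunits.add_mem (A.nonunits.neg_mem hmem) ?_) ?_
            · exact mul_mem_nonunits_of_mem_right A hxx
                (add_mem (add_mem hx'A (mul_mem (ofNat_mem A 2) hx)) ha₂)
            · exact mul_mem_nonunits_of_mem_left A ha₁ hWY
          have hD0 : D ≠ 0 := by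
            intro hD0
            rw [hD0, mul_zero] at hkey
            rcases mul_eq_zero.mp hkey.symm with h0 | h0
            · exact hxx0 h0
            · exact hMu (h0 ▸ A.nonunits.zero_mem)
          have hslope : (y' - W.negY x y) / (x' - x) = M / D := by
            rw [div_eq_div_iff hxx0 hD0, hkey, mul_comm]
          rw [hslope]
          exact not_mem_of_div A hMA hMu hDm hD0
        · -- numerator is a unit
          refine not_mem_of_div A ?_ ?_ hxx hxx0
          · have hnegY : W.negY x y ∈ A := by
              simp only [negY]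
              exact sub_mem (sub_mem (neg_mem hy) (mul_mem ha₁ hx)) ha₃
            exact sub_mem hy'A hnegY
          · intro hmem
            apply hWY
            have : 2 * y + W.a₁ * x + W.a₃ = (y' - W.negY x y) + -(y' - y) := by
              simp only [negY]; ring
            rw [this]
            exact A.nonunits.add_mem hmem (A.nonunits.neg_mem hyy)
    have hfin := sq_add_not_mem A hℓ ha₁
      (sub_mem (sub_mem (neg_mem ha₂) hx'A) hx)
    have : W.addX x' x (W.slope x' x y' (W.negY x y)) =
        (W.slope x' x y' (W.negY x y)) ^ 2 + W.a₁ * (W.slope x' x y' (W.negY x y)) +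
          (-W.a₂ - x' - x) := by
      simp only [addX]; ring
    rw [this]
    exact hfin

end Coordinates

section Galois

open scoped WeierstrassCurve.Affine

universe r s v

variable {R : Type r} {S : Type s} {K : Type v} [CommRing R] [Field S] [Field K]
  [DecidableEq K] {W' : Affine R} [Algebra R S] [Algebra R K] [Algebra S K]
  [IsScalarTower R S K]

/-- **M4, Galois form.**  If `σ` lies in the inertia group of the valuation subring `A` of `K`,
the curve has coefficients in `A`, and `P = (x, y)` has coordinates in `A` and nonsingular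
reduction, then `σ • P - P` lies in the kernel of reduction. -/
theorem smul_sub_eq_zero_or_X_not_mem (A : ValuationSubring K)
    (ha₁ : (W'⁄K).a₁ ∈ A) (ha₂ : (W'⁄K).a₂ ∈ A) (ha₃ : (W'⁄K).a₃ ∈ A) (ha₄ : (W'⁄K).a₄ ∈ A)
    {σ : K ≃ₐ[S] K} (hσ : σ ∈ A.inertiaSubgroupIn S)
    {x y : K} (h : (W'⁄K).Nonsingular x y) (hx : x ∈ A) (hy : y ∈ A)
    (hns : (W'⁄K).a₁ * y - (3 * x ^ 2 + 2 * (W'⁄K).a₂ * x + (W'⁄K).a₄) ∉ A.nonunits ∨
      2 * y + (W'⁄K).a₁ * x + (W'⁄K).a₃ ∉ A.nonunits) :
    σ • Point.some x y h - Point.some x y h = 0 ∨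
      ∃ (x'' y'' : K) (h'' : (W'⁄K).Nonsingular x'' y''),
        σ • Point.some x y h - Point.some x y h = Point.some x'' y'' h'' ∧ x'' ∉ A := by
  have hmap : σ • Point.some x y h =
      Point.some (σ x) (σ y) ((W'.baseChange_nonsingular σ.toAlgHom.injective ..).mpr h) := rfl
  rw [hmap]
  exact some_sub_some_eq_zero_or_X_not_mem A (W'⁄K) ha₁ ha₂ ha₃ ha₄ h _ hx hy
    (apply_sub_mem_nonunits_of_mem_inertiaSubgroupIn hσ hx)
    (apply_sub_mem_nonunits_of_mem_inertiaSubgroupIn hσ hy) hns

end Galois

end Fermat.Agent.S05.H63
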